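import Fermat.Agent.CAR.NRM.Export
import Fermat.Agent.CAR.BK.Vert
import Fermat.Agent.CAR.NS.Asm3
import Fermat.Agent.GAL.CT.Theta

/-!
# CAR / D3 / Abs : [D3] discreteness of the three vertical valuations on `E = F_K`, the uniformiser `ν₀` of the middle one inside
the chart rings `B_u`, and the structure `NS.Disc3` for `BK.Bu K E v u` (both charts), abstractly.

* `le_oo`, `le_zr`, `le_md`   : `z ∈ E`, `v z < 1`  ⇒  `v z ≤ v q`  (resp. `≤ v ν` if `v ν ^ (q-1) = v q`), from `NRM.Dat.Disc`;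
* `exists_nu`                 : `ν = γ c - α c ∈ B_u` with `v (md i₀) ν = v (md i₀) λ` (`λ = ζ - 1`), `c ∈ E₀` integral over `K[u₀]` with `θ (red c) ≠ 0`;
* `disc3_Bu`, `exists_disc3`  : `NS.Disc3 (Bu K E v u) (v3 E v i₀) oo (md ()) zr π ν (q - 1)`;
* `exists_small`              : `ν₁ = ν y`, `y ∈ p_oo ∩ p_zr`, `y ∉ p_md` (uniformiser at `md` which is small at `oo` and `zr`).
-/

set_option autoImplicit false

open Polynomial ModularCurve AlgebraicCurve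

noncomputable section

namespace Fermat.Agent.CAR.D3

open Fermat.Agent.GAL.KL Fermat.Agent.GAL.KLC Fermat.Agent.TOR.T1 Fermat.Agent.CAR.ON
open Fermat.Agent.GAL Fermat.Agent.CAR Fermat.Agent.CAR.BK Fermat.Agent.CAR.NRM

/-! ## ordered groups -/

section Ord

variable {Γ₀ : Type*} [LinearOrderedCommGroupWithZero Γ₀]

/-- `x = g ^ e < 1`, `g < 1`  ⇒  `x ≤ g`. -/
theorem le_of_zpow {g x : Γ₀} (hg : g < 1) (hg0 : g ≠ 0) {e : ℤ} (hx : x = g ^ e) (h1 : x < 1) :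
    x ≤ g := by
  have hpos : 0 < g := zero_lt_iff.2 hg0
  have he : 1 ≤ e := by
    by_contra hcon
    have he0 : e ≤ 0 := by omega
    have h2 : (1 : Γ₀) ≤ g ^ e := by
      have := zpow_le_zpow_right_of_le_one₀ hpos hg.le he0
      simpa using this
    exact absurd (hx ▸ h1) (not_lt.2 h2)
  have := zpow_le_zpow_right_of_le_one₀ hpos hg.le he
  rw [hx]
  simpa using this

/-- `x ^ r = g ^ e`, `y ^ r = g`, `x < 1`  ⇒  `x ≤ y`. -/
theorem le_of_pow_zpow {g x y : Γ₀} {r : ℕ} (hr : 0 < r) (hg : g < 1) (hg0 : g ≠ 0) {e : ℤ}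
    (hx : x ^ r = g ^ e) (hy : y ^ r = g) (h1 : x < 1) : x ≤ y := by
  have h2 : x ^ r < 1 := pow_lt_one₀ zero_le h1 hr.ne'
  have h3 : x ^ r ≤ y ^ r := by
    rw [hy]
    exact le_of_zpow hg hg0 hx h2
  by_contra hcon
  exact absurd h3 (not_le.2 (pow_lt_pow_left₀ (not_le.1 hcon) zero_le hr.ne'))

end Ord

/-! ## discreteness on `F_K`, in the language of `NRM.Dat` -/

section Dat

variable {L F k Γ₀ : Type*} [Field L] [Field F] [Algebra L F] [Field k]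
  [LinearOrderedCommGroupWithZero Γ₀] {D : NRM.Dat L F k Γ₀} {q : ℕ}

theorem dat_le_o (h : D.Disc q) {z : F} (hz : z ∈ D.FK) (h1 : D.vo z < 1) :
    D.vo z ≤ D.vL (q : L) := by
  by_cases h0 : z = 0
  · rw [h0, map_zero]; exact zero_le
  · obtain ⟨e, he⟩ := h.dO z hz h0
    exact le_of_zpow h.q_lt h.q_ne he h1

theorem dat_le_z (h : D.Disc q) {z : F} (hz : z ∈ D.FK) (h1 : D.vz z < 1) :
    D.vz z ≤ D.vL (q : L) := by
  by_cases h0 : z = 0
  · rw [h0, map_zero]; exact zero_le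
  · obtain ⟨e, he⟩ := h.dz z hz h0
    exact le_of_zpow h.q_lt h.q_ne he h1

theorem dat_le_m (h : D.Disc q) (hq : 2 ≤ q) {y : Γ₀} (hy : y ^ (q - 1) = D.vL (q : L)) {z : F}
    (hz : z ∈ D.FK) (h1 : D.vm z < 1) : D.vm z ≤ y := by
  by_cases h0 : z = 0
  · rw [h0, map_zero]; exact zero_le
  · obtain ⟨e, he⟩ := h.dm z hz h0
    exact le_of_pow_zpow (by omega) h.q_lt h.q_ne he hy h1

end Dat

/-! ## the language of [BK] -/

variable {K F₀ F k Γ' Γ₀ I : Type*} [Field K] [Field F₀] [Field F] [Algebra K F₀]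
  [Algebra K F] [Field k] [LinearOrderedCommGroupWithZero Γ'] [LinearOrderedCommGroupWithZero Γ₀]
  {v₀ : Valuation F₀ Γ'} {ρ₀ : v₀.integer →+* LaurentSeries k}
  {v : Idx I → Valuation F Γ₀} {ρ : ∀ i, (v i).integer →+* LaurentSeries k}
  {α β γ : F₀ →ₐ[K] F} {q : ℕ} [NeZero q] {E₀ : Subfield F₀} {E : Subfield F}
  {u₀ : F₀} {u : F} {η : LaurentSeries k}
  {i₀ : I} {vL : Valuation K Γ₀} {KK : Subfield K} {P1 P2 : F →* F}

/-- `q` is a uniformiser of `v oo` on `E`. -/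
theorem le_oo (A : (datOf v ρ i₀ vL KK E P1 P2).All q) {z : F} (hz : z ∈ E) (h : v oo z < 1) :
    v oo z ≤ v oo (algebraMap K F (q : K)) := by
  rw [show v oo (algebraMap K F (q : K)) = vL (q : K) from A.base.vLo _]
  exact dat_le_o A.disc hz h

/-- `q` is a uniformiser of `v zr` on `E`. -/
theorem le_zr (A : (datOf v ρ i₀ vL KK E P1 P2).All q) {z : F} (hz : z ∈ E) (h : v zr z < 1) :
    v zr z ≤ v zr (algebraMap K F (q : K)) := by
  rw [show v zr (algebraMap K F (q : K)) = vL (q : K) from A.base.vLz _]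
  exact dat_le_z A.disc hz h

/-- `ν` is a uniformiser of `v (md i₀)` on `E` as soon as `v ν ^ (q - 1) = v q`. -/
theorem le_md (A : (datOf v ρ i₀ vL KK E P1 P2).All q) (hq : 2 ≤ q) {ν : F}
    (hν : v (md i₀) ν ^ (q - 1) = v (md i₀) (algebraMap K F (q : K))) {z : F} (hz : z ∈ E)
    (h : v (md i₀) z < 1) : v (md i₀) z ≤ v (md i₀) ν := by
  rw [show v (md i₀) (algebraMap K F (q : K)) = vL (q : K) from A.base.vLm _] at hν
  exact dat_le_m A.disc hq hν hz h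

theorem q_lt_one (A : (datOf v ρ i₀ vL KK E P1 P2).All q) (j : Idx Unit) :
    v (l3 i₀ j) (algebraMap K F (q : K)) < 1 := by
  have h := A.disc.q_lt
  rcases j with _ | _ | ⟨⟩
  · rw [show v (l3 i₀ oo) (algebraMap K F (q : K)) = vL (q : K) from A.base.vLo _]; exact h
  · rw [show v (l3 i₀ zr) (algebraMap K F (q : K)) = vL (q : K) from A.base.vLz _]; exact h
  · rw [show v (l3 i₀ (md ())) (algebraMap K F (q : K)) = vL (q : K) from A.base.vLm _]; exact h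

/-- **`NS.Disc3` for `B_u`**, given `π = q` and `ν ∈ B_u` with `v (md i₀) ν ^ (q - 1) = v (md i₀) q`. -/
theorem disc3_Bu (A : (datOf v ρ i₀ vL KK E P1 P2).All q) (hq : 2 ≤ q) {π ν : Bu K E v u}
    (hπ : ((π : E) : F) = algebraMap K F (q : K))
    (hν : v (md i₀) ((ν : E) : F) ^ (q - 1) = v (md i₀) (algebraMap K F (q : K))) :
    NS.Disc3 (Bu K E v u) (v3 E v i₀) oo (md ()) zr π ν (q - 1) where
  h3 := Vert_idx_cases
  πo := by rw [v3_apply, hπ]; exact q_lt_one A oo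
  πz := by rw [v3_apply, hπ]; exact q_lt_one A zr
  uo := fun x hx => by
    rw [v3_apply, v3_apply, hπ]
    exact le_oo A x.2 hx
  uz := fun x hx => by
    rw [v3_apply, v3_apply, hπ]
    exact le_zr A x.2 hx
  e0 := by omega
  νm := by
    rw [v3_apply]
    by_contra hcon
    have h1 : (1 : Γ₀) ≤ v (md i₀) ((ν : E) : F) ^ (q - 1) := one_le_pow₀ (not_lt.1 hcon)
    rw [hν] at h1
    exact absurd (q_lt_one A (md ())) (not_lt.2 h1)
  um := fun x hx => by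
    rw [v3_apply, v3_apply]
    exact le_md A hq hν x.2 hx
  νe := by
    rw [v3_apply, v3_apply, hπ]
    exact hν

/-- an element of the reduced chart ring of level `M'` with non-zero derivative. -/
theorem exists_theta_ne (C : ChartK K ρ₀ ρ α γ E₀ E q u₀ u η) {a₀ : F₀} {φ₀ : LaurentSeries k}
    (h₀ : Rd ρ₀ a₀ φ₀) (hθ : CT.theta φ₀ ≠ 0) :
    ∃ c ∈ E₀, ∃ φ, IsInt K u₀ c ∧ Rd ρ₀ c φ ∧ CT.theta φ ≠ 0 := by
  obtain ⟨b, s, hs, ⟨cb, hcb⟩, hb, ⟨cs, hcs⟩, hsi, hmul⟩ := C.fr a₀ φ₀ h₀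
  by_cases h1 : CT.theta s = 0
  · have h2 : CT.theta b ≠ 0 := by
      rw [← hmul, CT.theta_mul, h1, zero_mul, zero_add]
      exact mul_ne_zero hs hθ
    obtain ⟨c, hc, hci, hcr⟩ := C.lift cb b hcb hb
    exact ⟨c, hc, b, hci, hcr, h2⟩
  · obtain ⟨c, hc, hci, hcr⟩ := C.lift cs s hcs hsi
    exact ⟨c, hc, s, hci, hcr, h1⟩

/-- `γ c - α c ∈ B_u`. -/
theorem sub_mem_Bu (H : Lvl2 K ρ₀ v ρ α β γ q) (C : ChartK K ρ₀ ρ α γ E₀ E q u₀ u η) {c : F₀}
    (hc : c ∈ E₀) {φ : LaurentSeries k} (hi : IsInt K u₀ c) (hr : Rd ρ₀ c φ) :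
    (⟨γ c - α c, sub_mem (C.γE c hc) (C.αE c hc)⟩ : E) ∈ Bu K E v u := by
  refine ⟨(C.intγ c hi).sub (C.intα c hi), fun i => ?_⟩
  rcases i with _ | _ | i
  · exact ((H.ooγ c φ hr).sub (H.ooα c φ hr)).le_one
  · exact ((H.zrγ c φ hr).sub (H.zrα c φ hr)).le_one
  · exact ((H.mdγ i c φ hr).sub (H.mdα i c φ hr)).le_one

/-- **the uniformiser of the middle valuation in `B_u`**: `ν = γ c - α c`.
`DEL` is `FQ2C.rd_md_delC` (`lam = ζ - 1`, `κ = ccC q A i₀`), `(a₀, φ₀) = (a0C, a0R)`. -/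
theorem exists_nu (H : Lvl2 K ρ₀ v ρ α β γ q) (C : ChartK K ρ₀ ρ α γ E₀ E q u₀ u η) (i₀ : I)
    {lam : K} (hlam : lam ≠ 0) {κ : k} (hκ : κ ≠ 0)
    (DEL : ∀ c φ, Rd ρ₀ c φ →
      Rd (ρ (md i₀)) ((γ c - α c) / algebraMap K F lam) (HahnSeries.C κ * CT.theta φ))
    {a₀ : F₀} {φ₀ : LaurentSeries k} (h₀ : Rd ρ₀ a₀ φ₀) (hθ : CT.theta φ₀ ≠ 0) :
    ∃ ν : Bu K E v u, v (md i₀) ((ν : E) : F) = v (md i₀) (algebraMap K F lam) := by
  obtain ⟨c, hc, φ, hi, hr, hφ⟩ := exists_theta_ne C h₀ hθ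
  refine ⟨⟨_, sub_mem_Bu H C hc hi hr⟩, ?_⟩
  show v (md i₀) (γ c - α c) = _
  have hC : (HahnSeries.C κ : LaurentSeries k) ≠ 0 := by
    rw [Ne, map_eq_zero_iff _ HahnSeries.C_injective]
    exact hκ
  have h1 := (DEL c φ hr).v_eq_one (H.red _) (mul_ne_zero hC hφ)
  have h2 : v (md i₀) (algebraMap K F lam) ≠ 0 :=
    (Valuation.ne_zero_iff _).2 ((_root_.map_ne_zero _).2 hlam)
  rw [map_div₀, div_eq_one_iff_eq h2] at h1
  exact h1

/-- **[D3]** for one chart. -/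
theorem exists_disc3 (H : Lvl2 K ρ₀ v ρ α β γ q) (C : ChartK K ρ₀ ρ α γ E₀ E q u₀ u η)
    (A : (datOf v ρ i₀ vL KK E P1 P2).All q) (hq : 2 ≤ q) {π : Bu K E v u}
    (hπ : ((π : E) : F) = algebraMap K F (q : K))
    {lam : K} (hlam : vL lam ^ (q - 1) = vL (q : K)) {κ : k} (hκ : κ ≠ 0)
    (DEL : ∀ c φ, Rd ρ₀ c φ →
      Rd (ρ (md i₀)) ((γ c - α c) / algebraMap K F lam) (HahnSeries.C κ * CT.theta φ))
    {a₀ : F₀} {φ₀ : LaurentSeries k} (h₀ : Rd ρ₀ a₀ φ₀) (hθ : CT.theta φ₀ ≠ 0) :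
    ∃ ν : Bu K E v u, v (md i₀) ((ν : E) : F) = vL lam ∧
      NS.Disc3 (Bu K E v u) (v3 E v i₀) oo (md ()) zr π ν (q - 1) := by
  have hl0 : lam ≠ 0 := by
    rintro rfl
    rw [map_zero, zero_pow (by omega)] at hlam
    exact A.disc.q_ne hlam.symm
  obtain ⟨ν, hν⟩ := exists_nu H C i₀ hl0 hκ DEL h₀ hθ
  have e1 : v (md i₀) (algebraMap K F lam) = vL lam := A.base.vLm _
  have e2 : v (md i₀) (algebraMap K F (q : K)) = vL (q : K) := A.base.vLm _
  refine ⟨ν, hν.trans e1, disc3_Bu A hq hπ ?_⟩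
  rw [hν, e1, e2, hlam]

/-! ## a uniformiser at `m` which is small at `o` and `z` -/

section Small

variable {F Γ₀ ι : Type*} [Field F] [LinearOrderedCommGroupWithZero Γ₀] [Fintype ι]
  {B : Subring F} {v : ι → Valuation F Γ₀} {p : ι → Ideal B}

/-- `ν₁ = ν₀ a b`, `a ∈ p o`, `b ∈ p z`, `a, b ∉ p m`. -/
theorem exists_small (V : NS.Vert B v p) {o m z : ι} (hom : o ≠ m) (hzm : z ≠ m) {π ν₀ : B} {e : ℕ}
    (D : NS.Disc3 B v o m z π ν₀ e) :
    ∃ ν₁ : B, v m (ν₁ : F) = v m (ν₀ : F) ∧ v o (ν₁ : F) < 1 ∧ v z (ν₁ : F) < 1 ∧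
      NS.Disc3 B v o m z π ν₁ e := by
  obtain ⟨a, ha, ham⟩ := SetLike.not_le_iff_exists.1 (V.ne m o hom.symm)
  obtain ⟨b, hb, hbm⟩ := SetLike.not_le_iff_exists.1 (V.ne m z hzm.symm)
  have h1 : ∀ c : B, c ∉ p m → v m (c : F) = 1 := fun c hc =>
    le_antisymm (V.le_one m c) (not_lt.1 fun h => hc ((V.mem_p m c).2 h))
  have hm : v m ((ν₀ * a * b : B) : F) = v m (ν₀ : F) := by
    push_cast
    rw [map_mul, map_mul, h1 a ham, h1 b hbm, mul_one, mul_one]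
  refine ⟨ν₀ * a * b, hm, ?_, ?_, ?_⟩
  · have e1 : ((ν₀ * a * b : B) : F) = ((ν₀ * b : B) : F) * (a : F) := by push_cast; ring
    rw [e1, map_mul]
    exact lt_of_le_of_lt (mul_le_of_le_one_left' (V.le_one o _)) ((V.mem_p o a).1 ha)
  · have e1 : ((ν₀ * a * b : B) : F) = ((ν₀ * a : B) : F) * (b : F) := by push_cast; ring
    rw [e1, map_mul]
    exact lt_of_le_of_lt (mul_le_of_le_one_left' (V.le_one z _)) ((V.mem_p z b).1 hb)
  · exact
    { h3 := D.h3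
      πo := D.πo
      πz := D.πz
      uo := D.uo
      uz := D.uz
      e0 := D.e0
      νm := by rw [hm]; exact D.νm
      um := fun x hx => by rw [hm]; exact D.um x hx
      νe := by rw [hm]; exact D.νe }

end Small

end Fermat.Agent.CAR.D3
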