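import Fermat.Agent.CAR.D3.Abs
import Fermat.Agent.CAR.BK.ConcFK
import Fermat.Agent.CAR.NRM.Inst.Bridge

/-!
# CAR / D3 / Conc : [D3] concrete: `NS.Disc3` for the chart rings `BK.BF`, `BK.BFinf` (`E = NRM.Inst.FK`) and `BK.BC`, `BK.BCinf`
(`E = BK.EC`), with `π = q`, `e = q - 1`, `ν = ga c - al c`, `|ν| = |ζ - 1|` at the middle cusps.
-/

set_option autoImplicit false

open ModularCurve AlgebraicCurve

noncomputable section

namespace Fermat.Agent.CAR.D3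

open Fermat.Agent.GR Fermat.Agent.GAL Fermat.Agent.GAL.KL Fermat.Agent.GAL.KLC Fermat.Agent.S24
open Fermat.Agent.S28 Fermat.Agent.GR.HeckeField Fermat.Agent.TOR Fermat.Agent.TOR.GB
open Fermat.Agent.CAR.FQ2V Fermat.Agent.CAR.FQ2E Fermat.Agent.CAR.FQ2C Fermat.Agent.CAR.ON
open Fermat.Agent.CAR.BK Fermat.Agent.CAR.NRM Fermat.Agent.CAR

variable {M' q : ℕ} [NeZero M'] [NeZero q] (A : ValuationSubring Qb) (ζ : Qbˣ)

theorem ccC_ne_zero (hq : q.Prime) (hA : A.LiesOverPrime q) (c : (ZMod q)ˣ) : ccC q A c ≠ 0 := by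
  have hchar : CharP (kA A) q := charP_residueField hq hA
  unfold ccC
  rw [Ne, CharP.cast_eq_zero_iff (kA A) q]
  intro hdvd
  have h4 : ((c : ZMod q).val : ZMod q) = 0 := (ZMod.natCast_eq_zero_iff _ _).2 hdvd
  rw [ZMod.natCast_val, ZMod.cast_id] at h4
  have : Fact q.Prime := ⟨hq⟩
  exact c.ne_zero h4

/-- all the hypotheses of [NRM] for `E = BK.EC`. -/
theorem all_datOfC (hq : q.Prime) (hqM : ¬ q ∣ M') (hA : A.LiesOverPrime q)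
    (hζ : IsPrimitiveRoot ζ q) (c₀ : (ZMod q)ˣ) :
    (datOf (vC M' q A ζ) (rhoC M' q A ζ) c₀ (Inst.vL A) (Inst.KK A) (EC A (M' * q * q))
        (Inst.P1 M' q) (Inst.P2 M' q)).All q := by
  rw [EC_eq_FK]
  exact Inst.all_datOf hq hqM hA hζ c₀

variable (hM : AdmLevel M') (hq : q.Prime) (hqM : ¬ q ∣ M') (hA : A.LiesOverPrime q)
  (hζ : IsPrimitiveRoot ζ q)
include hM hq hqM hA hζ

/-- **[D3], chart `t`, `E = FK`.** -/
theorem exists_disc3F (i₀ : (ZMod q)ˣ) :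
    ∃ ν : BF M' q A ζ, vC M' q A ζ (md i₀) ((ν : Inst.FK A (M' * q * q)) : FN (M' * q * q)) =
        Inst.vL A ((ζ : Qb) - 1) ∧
      NS.Disc3 (BF M' q A ζ) (v3 (Inst.FK A (M' * q * q)) (vC M' q A ζ) i₀) oo (md ()) zr
        (q : BF M' q A ζ) ν (q - 1) :=
  exists_disc3 (lvl2 A ζ hq hqM hA hζ) (chartF A ζ hM hq hqM hA hζ)
    (Inst.all_datOf hq hqM hA hζ i₀) hq.two_le (coe_natCast_Bu _ _ _ q) (Inst.vL_lam_pow hq hA hζ)
    (ccC_ne_zero A hq hA i₀) (fun _ _ h => rd_md_delC A ζ hq hqM hA hζ i₀ h) (rd_a0C A)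
    (theta_a0R_ne_zero A hq hA)

/-- **[D3], chart `1/t`, `E = FK`.** -/
theorem exists_disc3F_inv (i₀ : (ZMod q)ˣ) :
    ∃ ν : BFinf M' q A ζ, vC M' q A ζ (md i₀) ((ν : Inst.FK A (M' * q * q)) : FN (M' * q * q)) =
        Inst.vL A ((ζ : Qb) - 1) ∧
      NS.Disc3 (BFinf M' q A ζ) (v3 (Inst.FK A (M' * q * q)) (vC M' q A ζ) i₀) oo (md ()) zr
        (q : BFinf M' q A ζ) ν (q - 1) :=
  exists_disc3 (lvl2 A ζ hq hqM hA hζ) (chartF_inv A ζ hM hq hqM hA hζ)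
    (Inst.all_datOf hq hqM hA hζ i₀) hq.two_le (coe_natCast_Bu _ _ _ q) (Inst.vL_lam_pow hq hA hζ)
    (ccC_ne_zero A hq hA i₀) (fun _ _ h => rd_md_delC A ζ hq hqM hA hζ i₀ h) (rd_a0C A)
    (theta_a0R_ne_zero A hq hA)

/-- **[D3], chart `t`, `E = EC`.** -/
theorem exists_disc3C (i₀ : (ZMod q)ˣ) :
    ∃ ν : BC M' q A ζ, vC M' q A ζ (md i₀) ((ν : EC A (M' * q * q)) : FN (M' * q * q)) =
        Inst.vL A ((ζ : Qb) - 1) ∧
      NS.Disc3 (BC M' q A ζ) (v3 (EC A (M' * q * q)) (vC M' q A ζ) i₀) oo (md ()) zr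
        (q : BC M' q A ζ) ν (q - 1) :=
  exists_disc3 (lvl2 A ζ hq hqM hA hζ) (chartC A ζ hM hq hqM hA hζ)
    (all_datOfC A ζ hq hqM hA hζ i₀) hq.two_le (coe_natCast_Bu _ _ _ q) (Inst.vL_lam_pow hq hA hζ)
    (ccC_ne_zero A hq hA i₀) (fun _ _ h => rd_md_delC A ζ hq hqM hA hζ i₀ h) (rd_a0C A)
    (theta_a0R_ne_zero A hq hA)

/-- **[D3], chart `1/t`, `E = EC`.** -/
theorem exists_disc3C_inv (i₀ : (ZMod q)ˣ) :
    ∃ ν : BCinf M' q A ζ, vC M' q A ζ (md i₀) ((ν : EC A (M' * q * q)) : FN (M' * q * q)) =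
        Inst.vL A ((ζ : Qb) - 1) ∧
      NS.Disc3 (BCinf M' q A ζ) (v3 (EC A (M' * q * q)) (vC M' q A ζ) i₀) oo (md ()) zr
        (q : BCinf M' q A ζ) ν (q - 1) :=
  exists_disc3 (lvl2 A ζ hq hqM hA hζ) (chartC_inv A ζ hM hq hqM hA hζ)
    (all_datOfC A ζ hq hqM hA hζ i₀) hq.two_le (coe_natCast_Bu _ _ _ q) (Inst.vL_lam_pow hq hA hζ)
    (ccC_ne_zero A hq hA i₀) (fun _ _ h => rd_md_delC A ζ hq hqM hA hζ i₀ h) (rd_a0C A)
    (theta_a0R_ne_zero A hq hA)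

end Fermat.Agent.CAR.D3
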